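import Mathlib

set_option autoImplicit false

namespace Fermat.Agent.S57

section Semilinear

variable {R S M P : Type*} [Ring R] [Ring S] [AddCommGroup M] [AddCommGroup P] [Module R M]
  [Module S P] {σ : R →+* S}

theorem comap_strictMono_of_semilinear_surjective (f : M →ₛₗ[σ] P) (hf : Function.Surjective f) :
    StrictMono (Submodule.comap f : Submodule S P → Submodule R M) := by
  intro p q hpq
  refine lt_of_le_of_ne (Submodule.comap_mono hpq.le) ?_
  intro heq
  obtain ⟨y, hyq, hyp⟩ := SetLike.exists_of_lt hpq
  obtain ⟨x, rfl⟩ := hf y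
  have hx : x ∈ Submodule.comap f q := hyq
  rw [← heq] at hx
  exact hyp hx

theorem isArtinian_of_semilinear_surjective (f : M →ₛₗ[σ] P) (hf : Function.Surjective f)
    [IsArtinian R M] : IsArtinian S P :=
  (comap_strictMono_of_semilinear_surjective f hf).wellFoundedLT

theorem isNoetherian_of_semilinear_surjective (f : M →ₛₗ[σ] P) (hf : Function.Surjective f)
    [IsNoetherian R M] : IsNoetherian S P := by
  rw [isNoetherian_iff']
  exact (comap_strictMono_of_semilinear_surjective f hf).wellFoundedGT

theorem isFiniteLength_of_semilinear_surjective (f : M →ₛₗ[σ] P) (hf : Function.Surjective f)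
    (h : IsFiniteLength R M) : IsFiniteLength S P := by
  rw [isFiniteLength_iff_isNoetherian_isArtinian] at h ⊢
  obtain ⟨_, _⟩ := h
  exact ⟨isNoetherian_of_semilinear_surjective f hf, isArtinian_of_semilinear_surjective f hf⟩

end Semilinear

/-- A finitely generated module over a Noetherian ring, modulo a maximal ideal, has finite
length. -/
theorem isFiniteLength_quot_maximal_smul_top {A : Type*} [CommRing A] [IsNoetherianRing A]
    (I : Ideal A) [I.IsMaximal] (M : Type*) [AddCommGroup M] [Module A M] [Module.Finite A M] :
    IsFiniteLength A (M ⧸ I • (⊤ : Submodule A M)) := by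
  rw [isFiniteLength_iff_isNoetherian_isArtinian]
  refine ⟨inferInstance, ?_⟩
  let : Field (A ⧸ I) := Ideal.Quotient.field I
  have : Module.Finite (A ⧸ I) (M ⧸ I • (⊤ : Submodule A M)) :=
    Module.Finite.of_restrictScalars_finite A (A ⧸ I) _
  have : IsArtinian (A ⧸ I) (M ⧸ I • (⊤ : Submodule A M)) := inferInstance
  exact isArtinian_of_surjective_algebraMap (R := A ⧸ I) (S := A) Ideal.Quotient.mk_surjective

end Fermat.Agent.S57
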