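import Mathlib

set_option autoImplicit false

namespace Fermat.Agent.S57

open CategoryTheory IsLocalRing RingTheory.Sequence

variable {A : Type} [CommRing A] [IsLocalRing A] [IsNoetherianRing A]

omit [IsNoetherianRing A] in
/-- Over a local ring, modules of finite length have projective dimension bounded by that of the
residue field (quotient by the maximal ideal). -/
theorem hasProjectiveDimensionLT_of_isFiniteLength (n : ℕ)
    (hk : HasProjectiveDimensionLT (ModuleCat.of A (A ⧸ maximalIdeal A)) n)
    (M : Type) [AddCommGroup M] [Module A M] (hM : IsFiniteLength A M) :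
    HasProjectiveDimensionLT (ModuleCat.of A M) n := by
  induction hM with
  | @of_subsingleton M _ _ _ =>
    have hz : Limits.IsZero (ModuleCat.of A M) := ModuleCat.isZero_of_subsingleton _
    have := hz.hasProjectiveDimensionLT_zero
    exact hasProjectiveDimensionLT_of_ge _ 0 n (Nat.zero_le _)
  | @of_simple_quotient M _ _ N hs _ ih =>
    -- the short exact sequence `0 → N → M → M ⧸ N → 0`
    have hinj : Function.Injective N.subtype := Submodule.injective_subtype N
    have hsurj : Function.Surjective N.mkQ := Submodule.mkQ_surjective N
    have hex : Function.Exact N.subtype N.mkQ := by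
      intro x
      simp
    let S : ShortComplex (ModuleCat.{0} A) :=
      ModuleCat.shortComplexOfCompEqZero N.subtype N.mkQ hex.linearMap_comp_eq_zero
    have hS : S.ShortExact :=
      { exact := ModuleCat.shortComplex_exact _ hex
        mono_f := by
          simp [S, ModuleCat.shortComplexOfCompEqZero, ModuleCat.mono_iff_injective]
        epi_g := by
          simpa [S, ModuleCat.shortComplexOfCompEqZero, ModuleCat.epi_iff_surjective] using hsurj }
    obtain ⟨I, hI, ⟨e⟩⟩ := isSimpleModule_iff_quot_maximal.mp hs
    have hIm : I = maximalIdeal A := IsLocalRing.eq_maximalIdeal hI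
    subst hIm
    have h3 : HasProjectiveDimensionLT S.X₃ n :=
      hasProjectiveDimensionLT_of_iso (e.symm.toModuleIso) n
    exact hS.hasProjectiveDimensionLT_X₂ n ih h3

end Fermat.Agent.S57

namespace Fermat.Agent.S57

open CategoryTheory IsLocalRing RingTheory.Sequence

variable {A : Type} [CommRing A] [IsLocalRing A] [IsNoetherianRing A]

/-- A finitely generated module over a Noetherian local ring whose maximal ideal is generated by a
regular sequence of length `n`, admitting a weakly regular sequence of length `n` in the maximal
ideal with finite-length quotient, is free. -/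
theorem free_of_isWeaklyRegular_of_length_eq
    (ts : List A) (hts : IsRegular A ts) (htsm : Ideal.ofList ts = maximalIdeal A)
    (N : Type) [AddCommGroup N] [Module A N] [Module.Finite A N] [Nontrivial N]
    (ys : List A) (hlen : ys.length = ts.length) (hys : IsWeaklyRegular N ys)
    (hmem : ∀ y ∈ ys, y ∈ maximalIdeal A)
    (hfl : IsFiniteLength A (N ⧸ Ideal.ofList ys • (⊤ : Submodule A N))) :
    Module.Free A N := by
  -- projective dimension of the residue field
  have hk0 := ModuleCat.projectiveDimension_quotient_eq_length.{0} ts hts
  have hk : HasProjectiveDimensionLT (ModuleCat.of A (A ⧸ maximalIdeal A)) (ts.length + 1) := by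
    have e : Shrink.{0} (A ⧸ Ideal.ofList ts) ≃ₗ[A] (A ⧸ maximalIdeal A) :=
      (Shrink.linearEquiv A _).trans (Submodule.quotEquivOfEq _ _ htsm)
    have h1 : HasProjectiveDimensionLT
        (ModuleCat.of A (Shrink.{0} (A ⧸ Ideal.ofList ts))) (ts.length + 1) := by
      rw [← projectiveDimension_lt_iff, hk0]
      exact_mod_cast Nat.lt_succ_self _
    exact hasProjectiveDimensionLT_of_iso e.toModuleIso _
  have hq := hasProjectiveDimensionLT_of_isFiniteLength (ts.length + 1) hk _ hfl
  have hpd := ModuleCat.projectiveDimension_quotient_eq_add_length_of_isWeaklyRegular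
    (ModuleCat.of A N) ys hys hmem
  have hq' : projectiveDimension
      (ModuleCat.of A (N ⧸ Ideal.ofList ys • (⊤ : Submodule A N))) ≤ (ts.length : ℕ) := by
    rw [projectiveDimension_le_iff]
    exact hq
  have hN : projectiveDimension (ModuleCat.of A N) ≤ (0 : ℕ) := by
    have h2 : projectiveDimension (ModuleCat.of A N) + (ts.length : ℕ) ≤
        (0 : ℕ) + (ts.length : ℕ) := by
      rw [← hlen]
      have := hpd ▸ hq'
      simpa [hlen] using this
    exact ENat.WithBot.add_le_add_natCast_right_iff.mp h2
  rw [projectiveDimension_le_iff] at hN
  have hproj : Projective (ModuleCat.of A N) :=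
    (projective_iff_hasProjectiveDimensionLE_zero _).mpr hN
  have : Module.Projective A N := by
    rwa [← IsProjective.iff_projective] at hproj
  exact Module.free_of_flat_of_isLocalRing

end Fermat.Agent.S57
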