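import Mathlib

set_option autoImplicit false

namespace Fermat.Agent.S57

open IsLocalRing RingTheory.Sequence

/-- A "regular system of parameters": a regular sequence generating the maximal ideal. -/
def IsRegSys {B : Type} [CommRing B] [IsLocalRing B] (ts : List B) : Prop :=
  IsRegular B ts ∧ Ideal.ofList ts = maximalIdeal B

/-- Transfer along ring isomorphisms. -/
theorem IsRegSys.map_ringEquiv {B B' : Type} [CommRing B] [IsLocalRing B] [CommRing B']
    [IsLocalRing B'] (e : B ≃+* B') {ts : List B} (h : IsRegSys ts) :
    IsRegSys (ts.map e) := by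
  refine ⟨?_, ?_⟩
  · have hcongr : List.Forall₂ (fun (r : B) (s : B') => ∀ x : B, e.toAddEquiv (r • x) =
        s • e.toAddEquiv x) ts (ts.map e) := by
      rw [List.forall₂_map_right_iff]
      exact List.forall₂_same.mpr fun r _ x => by simp
    exact (AddEquiv.isRegular_congr hcongr).mp h.1
  · have h1 : Ideal.ofList (ts.map e) = (Ideal.ofList ts).map (e : B →+* B') := by
      rw [Ideal.map_ofList]
      rfl
    rw [h1, h.2]
    exact IsLocalRing.map_ringEquiv_maximalIdeal e

end Fermat.Agent.S57

namespace Fermat.Agent.S57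

open IsLocalRing RingTheory.Sequence PowerSeries
open scoped Pointwise

section PowerSeriesStep

variable {B : Type} [CommRing B]

/-- The constant coefficient as a map semilinear over itself. -/
noncomputable def constCoeffSL : PowerSeries B →ₛₗ[(constantCoeff : PowerSeries B →+* B)] B where
  toFun := constantCoeff
  map_add' := map_add _
  map_smul' := fun a x => by simp

theorem constCoeffSL_apply (y : PowerSeries B) : constCoeffSL y = constantCoeff y := rfl

theorem smul_top_le_ker_constCoeffSL :
    (X : PowerSeries B) • (⊤ : Submodule (PowerSeries B) (PowerSeries B)) ≤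
      LinearMap.ker (constCoeffSL (B := B)) := by
  intro x hx
  rw [Submodule.mem_smul_pointwise_iff_exists] at hx
  obtain ⟨y, -, rfl⟩ := hx
  rw [LinearMap.mem_ker, constCoeffSL_apply]
  simp

/-- The map `B⟦X⟧ / X B⟦X⟧ → B` induced by the constant coefficient. -/
noncomputable def quotXHom : QuotSMulTop (X : PowerSeries B) (PowerSeries B) →ₛₗ[(constantCoeff :
    PowerSeries B →+* B)] B :=
  Submodule.liftQ _ (constCoeffSL (B := B)) smul_top_le_ker_constCoeffSL

theorem quotXHom_mk (y : PowerSeries B) :
    quotXHom (Submodule.Quotient.mk y) = constantCoeff y := rfl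

theorem quotXHom_bijective : Function.Bijective (quotXHom (B := B)) := by
  refine ⟨?_, ?_⟩
  · rw [injective_iff_map_eq_zero]
    intro x hx
    obtain ⟨y, rfl⟩ := Submodule.Quotient.mk_surjective _ x
    rw [quotXHom_mk, ← X_dvd_iff] at hx
    obtain ⟨z, rfl⟩ := hx
    rw [Submodule.Quotient.mk_eq_zero, Submodule.mem_smul_pointwise_iff_exists]
    exact ⟨z, Submodule.mem_top, rfl⟩
  · intro b
    refine ⟨Submodule.Quotient.mk (C b), ?_⟩
    rw [quotXHom_mk]
    simp

/-- `B⟦X⟧ / X B⟦X⟧ ≃+ B`. -/
noncomputable def quotXAddEquiv : QuotSMulTop (X : PowerSeries B) (PowerSeries B) ≃+ B :=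
  AddEquiv.ofBijective (quotXHom (B := B) : QuotSMulTop (X : PowerSeries B) (PowerSeries B) →+ B)
    quotXHom_bijective

theorem quotXAddEquiv_mk (y : PowerSeries B) :
    quotXAddEquiv (Submodule.Quotient.mk y) = constantCoeff y := rfl

theorem quotXAddEquiv_smul (a : PowerSeries B) (x : QuotSMulTop (X : PowerSeries B) (PowerSeries B)) :
    quotXAddEquiv (a • x) = constantCoeff a • quotXAddEquiv x := by
  obtain ⟨y, rfl⟩ := Submodule.Quotient.mk_surjective _ x
  rw [← Submodule.Quotient.mk_smul, quotXAddEquiv_mk, quotXAddEquiv_mk]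
  simp

variable [IsLocalRing B]

theorem IsRegSys.powerSeries {ts : List B} (h : IsRegSys ts) :
    IsRegSys ((X : PowerSeries B) :: ts.map (C : B →+* PowerSeries B)) := by
  refine ⟨?_, ?_⟩
  · rw [isRegular_cons_iff]
    refine ⟨?_, ?_⟩
    · intro a b hab
      exact X_mul_cancel (by simpa using hab)
    · have hcongr : List.Forall₂ (fun (r : PowerSeries B) (s : B) =>
          ∀ x : QuotSMulTop (X : PowerSeries B) (PowerSeries B),
            quotXAddEquiv (r • x) = s • quotXAddEquiv x)
          (ts.map (C : B →+* PowerSeries B)) ts := by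
        rw [List.forall₂_map_left_iff]
        exact List.forall₂_same.mpr fun r _ x => by
          rw [quotXAddEquiv_smul]; simp
      exact (AddEquiv.isRegular_congr hcongr).mpr h.1
  · apply le_antisymm
    · rw [Ideal.ofList, Ideal.span_le]
      intro x hx
      have hx' : x = X ∨ x ∈ ts.map (C : B →+* PowerSeries B) := by simpa using hx
      rw [SetLike.mem_coe, IsLocalRing.mem_maximalIdeal, mem_nonunits_iff,
        isUnit_iff_constantCoeff]
      rcases hx' with rfl | hx'
      · simp
      · obtain ⟨t, ht, rfl⟩ := List.mem_map.mp hx'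
        have : t ∈ maximalIdeal B := by
          rw [← h.2]
          exact Ideal.subset_span ht
        simpa using this
    · intro f hf
      rw [IsLocalRing.mem_maximalIdeal, mem_nonunits_iff, isUnit_iff_constantCoeff] at hf
      have hf0 : constantCoeff f ∈ Ideal.ofList ts := by
        rw [h.2]
        exact hf
      have hsplit : f = (f - C (constantCoeff f)) + C (constantCoeff f) := by ring
      rw [hsplit]
      apply Ideal.add_mem
      · have : (X : PowerSeries B) ∣ f - C (constantCoeff f) := by
          rw [X_dvd_iff]; simp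
        obtain ⟨g, hg⟩ := this
        rw [hg]
        exact Ideal.mul_mem_right _ _ (Ideal.subset_span (by simp))
      · have hle : (Ideal.ofList ts).map (C : B →+* PowerSeries B) ≤
            Ideal.ofList ((X : PowerSeries B) :: ts.map (C : B →+* PowerSeries B)) := by
          rw [Ideal.map_ofList]
          exact Ideal.span_mono (fun x hx => by
            simp only [Set.mem_ofPred_eq, List.mem_cons] at hx ⊢
            exact Or.inr hx)
        exact hle (Ideal.mem_map_of_mem _ hf0)

end PowerSeriesStep

end Fermat.Agent.S57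

namespace Fermat.Agent.S57

open IsLocalRing RingTheory.Sequence

/-- Regular systems of parameters for multivariate power series rings over a local ring that has
one. -/
theorem exists_isRegSys_mvPowerSeries {B : Type} [CommRing B] [IsLocalRing B] {ts : List B}
    (h : IsRegSys ts) (r : ℕ) :
    ∃ ts' : List (MvPowerSeries (Fin r) B), ts'.length = ts.length + r ∧ IsRegSys ts' := by
  induction r with
  | zero =>
    refine ⟨ts.map (MvPowerSeries.isEmptyEquiv (Fin 0) B).symm.toRingEquiv, by simp, ?_⟩
    exact h.map_ringEquiv _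
  | succ r ih =>
    obtain ⟨ts', hlen, hts'⟩ := ih
    have h1 := hts'.powerSeries
    refine ⟨_, ?_, h1.map_ringEquiv (MvPowerSeries.finSuccEquiv B r).symm.toRingEquiv⟩
    simp [hlen]
    ring

/-- A discrete valuation ring has a regular system of parameters of length one. -/
theorem exists_isRegSys_dvr (𝒪 : Type) [CommRing 𝒪] [IsDomain 𝒪] [IsDiscreteValuationRing 𝒪] :
    ∃ ts : List 𝒪, ts.length = 1 ∧ IsRegSys ts := by
  obtain ⟨ϖ, hϖ⟩ := IsDiscreteValuationRing.exists_irreducible 𝒪
  refine ⟨[ϖ], rfl, ?_, ?_⟩
  · have hmem : ∀ x ∈ [ϖ], x ∈ maximalIdeal 𝒪 := by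
      intro x hx
      rw [List.mem_singleton] at hx
      subst hx
      exact hϖ.not_isUnit
    refine IsRegular.of_isWeaklyRegular_of_mem_maximalIdeal 𝒪 hmem ?_
    rw [isWeaklyRegular_singleton_iff]
    intro a b hab
    exact mul_left_cancel₀ hϖ.ne_zero (by simpa using hab)
  · rw [Ideal.ofList_singleton]
    exact (Irreducible.maximalIdeal_eq hϖ).symm

end Fermat.Agent.S57
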