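import Fermat.Prelude.Def_Algebra_PatchingDatum
import Fermat.Agent.S57.ProjDim
import Fermat.Agent.S57.RegularSystem
import Fermat.Agent.S57.FiniteLength

set_option autoImplicit false

namespace Fermat.Agent.S57

open IsLocalRing RingTheory.Sequence

variable {𝒪 : Type} [CommRing 𝒪] {r : ℕ} {R : Type} [CommRing R] [Algebra 𝒪 R]
  {M : Type} [AddCommGroup M] [Module R M]

/-- The `φ`-semilinear parametrisation `c ↦ ∑ φ (c i) • b i` of `N`. -/
noncomputable def paramSL (L : Algebra.PatchingLevel 𝒪 r R M ⊥) :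
    (Fin L.d → MvPowerSeries (Fin r) 𝒪) →ₛₗ[(L.φ : MvPowerSeries (Fin r) 𝒪 →+*
      MvPowerSeries (Fin r) 𝒪)] L.N where
  toFun c := ∑ i, L.φ (c i) • L.b i
  map_add' c c' := by
    simp only [Pi.add_apply, map_add, add_smul, Finset.sum_add_distrib]
  map_smul' a c := by
    simp only [Pi.smul_apply, smul_eq_mul, map_mul, RingHom.coe_coe, Finset.smul_sum, mul_smul]

theorem paramSL_apply (L : Algebra.PatchingLevel 𝒪 r R M ⊥)
    (c : Fin L.d → MvPowerSeries (Fin r) 𝒪) : paramSL L c = ∑ i, L.φ (c i) • L.b i := rfl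

theorem paramSL_bijective (L : Algebra.PatchingLevel 𝒪 r R M ⊥) :
    Function.Bijective (paramSL L) := by
  refine ⟨?_, ?_⟩
  · rw [injective_iff_map_eq_zero]
    intro c hc
    rw [paramSL_apply, L.b_rel] at hc
    funext i
    simpa using hc i
  · intro x
    obtain ⟨c, hc⟩ := L.b_span x
    exact ⟨c, hc.symm⟩

end Fermat.Agent.S57

namespace Fermat.Agent.S57

open IsLocalRing RingTheory.Sequence
open scoped TensorProduct

variable {𝒪 : Type} [CommRing 𝒪] [IsDomain 𝒪] [IsDiscreteValuationRing 𝒪]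
  {r : ℕ} {R : Type} [CommRing R] [Algebra 𝒪 R]
  {M : Type} [AddCommGroup M] [Module R M]

omit [IsDomain 𝒪] [IsDiscreteValuationRing 𝒪] in
theorem nontrivial_N [Nontrivial M] (L : Algebra.PatchingLevel 𝒪 r R M ⊥) : Nontrivial L.N :=
  L.π_surjective.nontrivial

omit [IsDomain 𝒪] [IsDiscreteValuationRing 𝒪] in
theorem finite_N (L : Algebra.PatchingLevel 𝒪 r R M ⊥) :
    Module.Finite (MvPowerSeries (Fin r) 𝒪) L.N := by
  classical
  refine ⟨⟨Finset.univ.image L.b, ?_⟩⟩
  rw [eq_top_iff]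
  intro x _
  obtain ⟨c, rfl⟩ := L.b_span x
  refine Submodule.sum_mem _ fun i _ => Submodule.smul_mem _ _ (Submodule.subset_span ?_)
  simp

theorem free_N [Nontrivial M] (L : Algebra.PatchingLevel 𝒪 r R M ⊥) :
    Module.Free (MvPowerSeries (Fin r) 𝒪) L.N := by
  obtain ⟨ts0, -, hts0⟩ := exists_isRegSys_dvr 𝒪
  obtain ⟨ts, hlen, hts⟩ := exists_isRegSys_mvPowerSeries hts0 r
  have hNnt : Nontrivial L.N := nontrivial_N L
  have hNfin : Module.Finite (MvPowerSeries (Fin r) 𝒪) L.N := finite_N L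
  -- the parametrisation
  let E := paramSL L
  have hE : Function.Bijective E := paramSL_bijective L
  let e : (Fin L.d → MvPowerSeries (Fin r) 𝒪) ≃+ L.N :=
    AddEquiv.ofBijective (E : (Fin L.d → MvPowerSeries (Fin r) 𝒪) →+ L.N) hE
  have hFnt : Nontrivial (Fin L.d → MvPowerSeries (Fin r) 𝒪) := e.toEquiv.nontrivial
  have hmem : ∀ t ∈ ts, t ∈ maximalIdeal (MvPowerSeries (Fin r) 𝒪) := by
    intro t ht
    rw [← hts.2]
    exact Ideal.subset_span ht
  -- regularity on the free module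
  have hregF : IsRegular (Fin L.d → MvPowerSeries (Fin r) 𝒪) ts := by
    refine IsRegular.of_isWeaklyRegular_of_mem_maximalIdeal _ hmem ?_
    have h1 : IsWeaklyRegular ((Fin L.d → MvPowerSeries (Fin r) 𝒪) ⊗[MvPowerSeries (Fin r) 𝒪]
        (MvPowerSeries (Fin r) 𝒪)) ts := hts.1.1.isWeaklyRegular_lTensor
    exact ((TensorProduct.rid _ _).isWeaklyRegular_congr ts).mp h1
  -- transfer to `N`
  have hcongr : List.Forall₂ (fun (a : MvPowerSeries (Fin r) 𝒪) (a' : MvPowerSeries (Fin r) 𝒪) =>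
      ∀ x : Fin L.d → MvPowerSeries (Fin r) 𝒪, e (a • x) = a' • e x) ts (ts.map L.φ) := by
    rw [List.forall₂_map_right_iff]
    exact List.forall₂_same.mpr fun a _ x => E.map_smulₛₗ a x
  have hregN : IsRegular L.N (ts.map L.φ) := (AddEquiv.isRegular_congr hcongr).mp hregF
  have hmemN : ∀ y ∈ ts.map L.φ, y ∈ maximalIdeal (MvPowerSeries (Fin r) 𝒪) := by
    intro y hy
    by_contra hyu
    rw [IsLocalRing.mem_maximalIdeal, mem_nonunits_iff, not_not] at hyu
    apply hregN.top_ne_smul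
    have : Ideal.ofList (ts.map L.φ) = ⊤ :=
      Ideal.eq_top_of_isUnit_mem _ (Ideal.subset_span hy) hyu
    rw [this, Submodule.top_smul]
  -- finite length of the quotient
  have hfl : IsFiniteLength (MvPowerSeries (Fin r) 𝒪)
      (L.N ⧸ Ideal.ofList (ts.map L.φ) • (⊤ : Submodule (MvPowerSeries (Fin r) 𝒪) L.N)) := by
    have hmax : (Ideal.ofList ts).IsMaximal := by
      rw [hts.2]; infer_instance
    have h0 := isFiniteLength_quot_maximal_smul_top (Ideal.ofList ts)
      (Fin L.d → MvPowerSeries (Fin r) 𝒪)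
    have hle : Ideal.ofList ts • (⊤ : Submodule _ (Fin L.d → MvPowerSeries (Fin r) 𝒪)) ≤
        Submodule.comap E (Ideal.ofList (ts.map L.φ) • (⊤ : Submodule _ L.N)) := by
      rw [Submodule.smul_le]
      intro a ha x _
      rw [Submodule.mem_comap, E.map_smulₛₗ]
      refine Submodule.smul_mem_smul ?_ Submodule.mem_top
      have hmap := Ideal.map_ofList (L.φ : MvPowerSeries (Fin r) 𝒪 →+* MvPowerSeries (Fin r) 𝒪) ts
      have hmem' := Ideal.mem_map_of_mem
        (L.φ : MvPowerSeries (Fin r) 𝒪 →+* MvPowerSeries (Fin r) 𝒪) ha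
      rw [hmap] at hmem'
      exact hmem'
    refine isFiniteLength_of_semilinear_surjective (Submodule.mapQ _ _ E hle) ?_ h0
    intro y
    obtain ⟨x, rfl⟩ := Submodule.Quotient.mk_surjective _ y
    obtain ⟨c, rfl⟩ := hE.2 x
    exact ⟨Submodule.Quotient.mk c, rfl⟩
  exact free_of_isWeaklyRegular_of_length_eq ts hts.1 hts.2 L.N (ts.map L.φ) (by simp)
    hregN.toIsWeaklyRegular hmemN hfl

end Fermat.Agent.S57

namespace Fermat.Agent.S57

open IsLocalRing

variable {𝒪 : Type} [CommRing 𝒪] [IsDomain 𝒪] [IsDiscreteValuationRing 𝒪]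
  {r : ℕ} {R : Type} [CommRing R] [Algebra 𝒪 R]
  {M : Type} [AddCommGroup M] [Module R M]

/-- Coordinates of elements of `I • ⊤` in a basis lie in `I`. -/
theorem repr_mem_of_mem_smul_top {A N ι : Type*} [CommRing A] [AddCommGroup N] [Module A N]
    (e : Module.Basis ι A N) (I : Ideal A) {x : N} (hx : x ∈ I • (⊤ : Submodule A N)) (j : ι) :
    e.repr x j ∈ I := by
  refine Submodule.smul_induction_on hx ?_ ?_
  · intro a ha y _
    rw [map_smul, Finsupp.smul_apply, smul_eq_mul]
    exact I.mul_mem_right _ ha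
  · intro y z hy hz
    rw [map_add, Finsupp.add_apply]
    exact I.add_mem hy hz

theorem ker_ψ_eq [Nontrivial M] (L : Algebra.PatchingLevel 𝒪 r R M ⊥) :
    RingHom.ker L.ψ = Ideal.span (Set.range fun i : Fin r => L.φ (MvPowerSeries.X i)) := by
  have hfree := free_N L
  have hNnt : Nontrivial L.N := nontrivial_N L
  let e := Module.Free.chooseBasis (MvPowerSeries (Fin r) 𝒪) L.N
  have hne : Nonempty (Module.Free.ChooseBasisIndex (MvPowerSeries (Fin r) 𝒪) L.N) :=
    e.index_nonempty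
  obtain ⟨j⟩ := hne
  apply le_antisymm
  · intro f hf
    rw [RingHom.mem_ker] at hf
    have h1 : L.π (f • e j) = 0 := by rw [L.π_smul, hf, zero_smul]
    rw [L.ker_π] at h1
    have h2 := repr_mem_of_mem_smul_top e _ h1 j
    simpa using h2
  · rw [Ideal.span_le]
    rintro _ ⟨i, rfl⟩
    exact L.ψ_φ_X i

theorem free_M [Nontrivial M] (L : Algebra.PatchingLevel 𝒪 r R M ⊥) :
    ∃ (ι : Type) (_ : Nonempty ι), Nonempty (Module.Basis ι R M) := by
  have hfree := free_N L
  have hNnt : Nontrivial L.N := nontrivial_N L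
  let e := Module.Free.chooseBasis (MvPowerSeries (Fin r) 𝒪) L.N
  refine ⟨Module.Free.ChooseBasisIndex (MvPowerSeries (Fin r) 𝒪) L.N, e.index_nonempty, ?_⟩
  have hker := ker_ψ_eq L
  -- `π` of a linear combination
  have hπsum : ∀ (s : Finset (Module.Free.ChooseBasisIndex (MvPowerSeries (Fin r) 𝒪) L.N))
      (a : Module.Free.ChooseBasisIndex (MvPowerSeries (Fin r) 𝒪) L.N → MvPowerSeries (Fin r) 𝒪),
      L.π (∑ i ∈ s, a i • e i) = ∑ i ∈ s, L.ψ (a i) • L.π (e i) := by
    intro s a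
    rw [map_sum]
    exact Finset.sum_congr rfl fun i _ => L.π_smul _ _
  refine ⟨Module.Basis.mk (v := fun i => L.π (e i)) ?_ ?_⟩
  · rw [linearIndependent_iff']
    intro s g hg i hi
    -- lift the coefficients
    let a : Module.Free.ChooseBasisIndex (MvPowerSeries (Fin r) 𝒪) L.N →
        MvPowerSeries (Fin r) 𝒪 := fun i => Function.surjInv L.ψ_surjective (g i)
    have ha : ∀ i, L.ψ (a i) = g i := fun i => Function.surjInv_eq L.ψ_surjective (g i)
    have h1 : L.π (∑ i ∈ s, a i • e i) = 0 := by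
      rw [hπsum, ← hg]
      exact Finset.sum_congr rfl fun i _ => by rw [ha]
    rw [L.ker_π] at h1
    have h2 := repr_mem_of_mem_smul_top e _ h1 i
    rw [← hker, RingHom.mem_ker] at h2
    rw [← ha i, ← h2]
    congr 1
    rw [map_sum, Finsupp.finsetSum_apply]
    simp [Finsupp.single_apply, hi]
  · rintro y -
    obtain ⟨x, rfl⟩ := L.π_surjective y
    have hx : x = ∑ i ∈ (e.repr x).support, e.repr x i • e i := by
      conv_lhs => rw [← e.linearCombination_repr x]
      rfl
    rw [hx, hπsum]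
    refine Submodule.sum_mem _ fun i _ => Submodule.smul_mem _ _ (Submodule.subset_span ?_)
    exact ⟨i, rfl⟩

end Fermat.Agent.S57
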